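import Fermat.Agent.Hecke.EigenChar
import Fermat.Prelude.Def_CuspForm_HeckeAlgebra
import Fermat.Prelude.Def_FormalHecke_Eigensystem
import Fermat.Prelude.Def_FLTPrelim_Modularity
import Fermat.Prelude.Thm_ModularFormClass_qCoeff_heckeT
import Fermat.Prelude.Thm_ModularFormClass_qCoeff_heckeU
import Fermat.Prelude.Thm_CongruenceSubgroup_one_mem_strictPeriods_Gamma0

/-!
# Normalised eigenforms from Hecke eigenvectors

A nonzero common eigenvector of all `T_ℓ` and `U_q` on `S₂(Γ₀(N))` has nonzero first coefficient and,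
once normalised, is a normalised eigenform; its prime coefficients are the eigenvalues.
-/

set_option autoImplicit false

open CongruenceSubgroup ModularFormClass

namespace Fermat.Agent.Hecke

/-- A formal eigensystem is multiplicative on coprime arguments. -/
theorem eigensystem_map_mul {R : Type*} [CommRing R] {e a : ℕ → R}
    (h : FormalHecke.IsEigensystem e a) (m : ℕ) :
    ∀ n : ℕ, m.Coprime n → a (m * n) = a m * a n := by
  induction m using Nat.strong_induction_on with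
  | _ m ih =>
    intro n hmn
    rcases Nat.lt_or_ge m 2 with hm | hm
    · interval_cases m
      · obtain rfl : n = 1 := by simpa using hmn
        rw [h.1, mul_one, mul_one]
      · rw [h.1, one_mul, one_mul]
    obtain ⟨ℓ, hℓ, k, rfl⟩ := Nat.exists_prime_and_dvd (show m ≠ 1 by omega)
    have hk : 0 < k := Nat.pos_of_ne_zero fun hk => by simp [hk] at hm
    have hkm : k < ℓ * k := lt_mul_left hk hℓ.one_lt
    have hln : ¬ ℓ ∣ n := hℓ.coprime_iff_not_dvd.mp hmn.coprime_mul_right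
    have hkn : k.Coprime n := hmn.coprime_mul_left
    have h1 := h.2 ℓ hℓ (k * n)
    have h2 := h.2 ℓ hℓ k
    rw [mul_assoc]
    by_cases hd : ℓ ∣ k
    · obtain ⟨j, rfl⟩ := hd
      have hjn : a (j * n) = a j * a n :=
        ih j (lt_trans (lt_mul_left (Nat.pos_of_mul_pos_left hk) hℓ.one_lt) hkm) n
          hkn.coprime_mul_left
      rw [if_pos (dvd_mul_of_dvd_left (Dvd.intro j rfl) n), mul_assoc ℓ j n,
        Nat.mul_div_cancel_left _ hℓ.pos, hjn, ← mul_assoc ℓ j n, ih _ hkm n hkn] at h1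
      rw [if_pos (Dvd.intro j rfl), Nat.mul_div_cancel_left _ hℓ.pos] at h2
      linear_combination h1 - a n * h2
    · rw [if_neg fun hh => (hℓ.dvd_mul.mp hh).elim hd hln, ih _ hkm n hkn] at h1
      rw [if_neg hd] at h2
      linear_combination h1 - a n * h2

/-- The three-term recursion at prime powers of a formal eigensystem. -/
theorem eigensystem_prime_pow {R : Type*} [CommRing R] {e a : ℕ → R}
    (h : FormalHecke.IsEigensystem e a) {p : ℕ} (hp : p.Prime) (r : ℕ) :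
    a (p ^ (r + 2)) = a p * a (p ^ (r + 1)) - e p * a (p ^ r) := by
  have := h.2 p hp (p ^ (r + 1))
  rw [if_pos (dvd_pow_self p (by omega)), ← pow_succ', pow_succ p r,
    Nat.mul_div_cancel _ hp.pos, ← pow_succ] at this
  linear_combination this

section qCoeff

variable {N : ℕ} {k : ℤ}

theorem qCoeff_zero (n : ℕ) : qCoeff (⇑(0 : CuspForm (Gamma0 N) k)) n = 0 := by
  simp [ModularFormClass.qCoeff, UpperHalfPlane.qExpansion_zero]

theorem qCoeff_add (f g : CuspForm (Gamma0 N) k) (n : ℕ) :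
    qCoeff (⇑(f + g)) n = qCoeff f n + qCoeff g n := by
  rw [FunLike.coe_add, ModularFormClass.qCoeff, ModularForm.qExpansion_add one_pos
    (one_mem_strictPeriods_Gamma0 N) f g, map_add]
  rfl

theorem qCoeff_sub (f g : CuspForm (Gamma0 N) k) (n : ℕ) :
    qCoeff (⇑(f - g)) n = qCoeff f n - qCoeff g n := by
  rw [eq_sub_iff_add_eq, ← qCoeff_add, sub_add_cancel]

theorem qCoeff_smul (c : ℂ) (f : CuspForm (Gamma0 N) k) (n : ℕ) :
    qCoeff (⇑(c • f)) n = c * qCoeff f n := by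
  rw [FunLike.coe_smul, ModularFormClass.qCoeff, ModularForm.qExpansion_smul one_pos
    (one_mem_strictPeriods_Gamma0 N) c f, map_smul]
  rfl

theorem qCoeff_zero_index (f : CuspForm (Gamma0 N) k) : qCoeff f 0 = 0 :=
  CuspFormClass.qExpansion_coeff_zero f one_pos (one_mem_strictPeriods_Gamma0 N)

theorem eq_zero_of_qCoeff_eq_zero {f : CuspForm (Gamma0 N) k} (h : ∀ n, qCoeff f n = 0) :
    f = 0 := by
  have hp : (1 : ℝ) ∈ (Gamma0 N : Subgroup (GL (Fin 2) ℝ)).strictPeriods :=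
    one_mem_strictPeriods_Gamma0 N
  have : Fact (IsCusp OnePoint.infty (Gamma0 N : Subgroup (GL (Fin 2) ℝ))) :=
    ⟨Subgroup.isCusp_of_mem_strictPeriods one_pos hp⟩
  refine DFunLike.coe_injective ((UpperHalfPlane.qExpansion_eq_zero_iff one_pos
    (SlashInvariantFormClass.periodic_comp_ofComplex f hp) (ModularFormClass.holo f)
    (ModularFormClass.bdd_at_infty f)).mp (PowerSeries.ext fun n => ?_))
  simpa [ModularFormClass.qCoeff] using h n

theorem qCoeff_heckeTLin {ℓ : ℕ} (hℓ : ℓ.Prime) (hℓN : ¬ ℓ ∣ N) (f : CuspForm (Gamma0 N) k)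
    (n : ℕ) :
    qCoeff (⇑(CuspForm.heckeTLin k hℓ hℓN f)) n = ModularForm.coeffHeckeT k ℓ (qCoeff f) n := by
  rw [CuspForm.coe_heckeTLin_apply, ModularFormClass.qCoeff_heckeT f
    (one_mem_strictPeriods_Gamma0 N) hℓ.ne_zero]

theorem qCoeff_heckeULin [NeZero N] {q : ℕ} (hq : q.Prime) (hqN : q ∣ N)
    (f : CuspForm (Gamma0 N) k) (n : ℕ) :
    qCoeff (⇑(CuspForm.heckeULin k hqN f)) n = qCoeff f (n * q) := by
  rw [CuspForm.coe_heckeULin_apply, ModularFormClass.qCoeff_heckeU f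
    (one_mem_strictPeriods_Gamma0 N) hq.ne_zero, ModularForm.coeffHeckeU_apply]

end qCoeff

variable {N : ℕ} [NeZero N]

/-- The nebentype term `e ℓ` of a weight 2 eigensystem of level `N`. -/
noncomputable def weightTwoTerm (N : ℕ) (ℓ : ℕ) : ℂ := if ℓ ∣ N then 0 else (ℓ : ℂ)

/-- A nonzero common eigenvector of all Hecke operators normalises to a normalised eigenform with
the same eigencharacter, and its prime coefficients are the eigenvalues. -/
theorem exists_normalizedEigenform_of_eigenvector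
    (φ : CuspForm.heckeAlgebra N 2 ∅ →+* ℂ) {g : CuspForm (Gamma0 N) 2} (hg : g ≠ 0)
    (hφ : ∀ t : CuspForm.heckeAlgebra N 2 ∅, (t : Module.End ℂ _) g = φ t • g) :
    ∃ f : CuspForm (Gamma0 N) 2, f.IsNormalizedEigenform ∧
      (∀ t : CuspForm.heckeAlgebra N 2 ∅, (t : Module.End ℂ _) f = φ t • f) ∧
      (∀ (ℓ : ℕ) (hℓ : ℓ.Prime) (hℓN : ¬ ℓ ∣ N),
        qCoeff f ℓ = φ (CuspForm.heckeAlgebra.T hℓ hℓN (Set.notMem_empty ℓ))) ∧
      ∀ (q : ℕ) (hq : q.Prime) (hqN : q ∣ N),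
        qCoeff f q = φ (CuspForm.heckeAlgebra.U hq hqN (Set.notMem_empty q)) := by
  let lam : ℕ → ℂ := fun ℓ =>
    if hℓ : ℓ.Prime then
      (if hℓN : ℓ ∣ N then φ (CuspForm.heckeAlgebra.U hℓ hℓN (Set.notMem_empty ℓ))
      else φ (CuspForm.heckeAlgebra.T hℓ hℓN (Set.notMem_empty ℓ)))
    else 0
  have rel : ∀ f : CuspForm (Gamma0 N) 2,
      (∀ t : CuspForm.heckeAlgebra N 2 ∅, (t : Module.End ℂ _) f = φ t • f) →
      ∀ ℓ : ℕ, ℓ.Prime → ∀ n : ℕ,
        qCoeff f (ℓ * n) + weightTwoTerm N ℓ * (if ℓ ∣ n then qCoeff f (n / ℓ) else 0) =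
          lam ℓ * qCoeff f n := by
    intro f hf ℓ hℓ n
    by_cases hℓN : ℓ ∣ N
    · have := hf (CuspForm.heckeAlgebra.U hℓ hℓN (Set.notMem_empty ℓ))
      rw [CuspForm.heckeAlgebra.coe_U] at this
      have := congrArg (fun x : CuspForm (Gamma0 N) 2 => qCoeff x n) this
      simp only [qCoeff_heckeULin hℓ, qCoeff_smul] at this
      simp [lam, weightTwoTerm, hℓ, hℓN, ← this, mul_comm ℓ n]
    · have := hf (CuspForm.heckeAlgebra.T hℓ hℓN (Set.notMem_empty ℓ))
      rw [CuspForm.heckeAlgebra.coe_T] at this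
      have := congrArg (fun x : CuspForm (Gamma0 N) 2 => qCoeff x n) this
      simp only [qCoeff_heckeTLin, qCoeff_smul, ModularForm.coeffHeckeT_apply] at this
      simp [lam, weightTwoTerm, hℓ, hℓN, ← this, mul_comm ℓ n, mul_ite]
  have h1 : qCoeff g 1 ≠ 0 := by
    refine fun h1 => hg (eq_zero_of_qCoeff_eq_zero fun n => ?_)
    induction n using Nat.strong_induction_on with
    | _ n ih =>
      rcases Nat.lt_or_ge n 2 with hn | hn
      · interval_cases n
        · exact qCoeff_zero_index g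
        · exact h1
      obtain ⟨ℓ, hℓ, k, rfl⟩ := Nat.exists_prime_and_dvd (show n ≠ 1 by omega)
      have hk : 0 < k := Nat.pos_of_ne_zero fun hk => by simp [hk] at hn
      have hlt : k < ℓ * k := lt_mul_left hk hℓ.one_lt
      have := rel g hφ ℓ hℓ k
      rw [ih k hlt, mul_zero] at this
      by_cases hd : ℓ ∣ k
      · rw [if_pos hd, ih _ (lt_of_le_of_lt (Nat.div_le_self _ _) hlt)] at this
        simpa using this
      · simpa [hd] using this
  let f : CuspForm (Gamma0 N) 2 := (qCoeff g 1)⁻¹ • g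
  have hf : ∀ t : CuspForm.heckeAlgebra N 2 ∅, (t : Module.End ℂ _) f = φ t • f := fun t => by
    rw [map_smul, hφ, smul_comm]
  have hf1 : qCoeff f 1 = 1 := by rw [qCoeff_smul, inv_mul_cancel₀ h1]
  have hlam : ∀ ℓ : ℕ, ℓ.Prime → qCoeff f ℓ = lam ℓ := by
    intro ℓ hℓ
    have := rel f hf ℓ hℓ 1
    simpa [hf1, hℓ.ne_one] using this
  have hes : FormalHecke.IsEigensystem (weightTwoTerm N) (qCoeff f) :=
    ⟨hf1, fun ℓ hℓ n => by rw [hlam ℓ hℓ]; exact rel f hf ℓ hℓ n⟩
  refine ⟨f, ⟨hf1, eigensystem_map_mul hes, fun p r hp hpN => ?_, fun p r hp hpN => ?_⟩, hf,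
    fun ℓ hℓ hℓN => ?_, fun q hq hqN => ?_⟩
  · rw [eigensystem_prime_pow hes hp r, weightTwoTerm, if_neg hpN]
  · rw [eigensystem_prime_pow hes hp r, weightTwoTerm, if_pos hpN, zero_mul, sub_zero]
  · rw [hlam ℓ hℓ]; simp [lam, hℓ, hℓN]
  · rw [hlam q hq]; simp [lam, hq, hqN]

/-- For every prime `I` of the full weight 2 Hecke algebra there is a normalised eigenform whose
eigencharacter has kernel contained in `I`. -/
theorem exists_normalizedEigenform_ker_le [FiniteDimensional ℂ (CuspForm (Gamma0 N) 2)]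
    (I : Ideal (CuspForm.heckeAlgebra N 2 ∅)) [I.IsPrime] :
    ∃ (φ : CuspForm.heckeAlgebra N 2 ∅ →+* ℂ) (f : CuspForm (Gamma0 N) 2),
      RingHom.ker φ ≤ I ∧ f.IsNormalizedEigenform ∧
      (∀ t : CuspForm.heckeAlgebra N 2 ∅, (t : Module.End ℂ _) f = φ t • f) ∧
      (∀ (ℓ : ℕ) (hℓ : ℓ.Prime) (hℓN : ¬ ℓ ∣ N),
        qCoeff f ℓ = φ (CuspForm.heckeAlgebra.T hℓ hℓN (Set.notMem_empty ℓ))) ∧
      ∀ (q : ℕ) (hq : q.Prime) (hqN : q ∣ N),
        qCoeff f q = φ (CuspForm.heckeAlgebra.U hq hqN (Set.notMem_empty q)) := by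
  obtain ⟨φ, g, hg, hφ, hker⟩ := exists_eigenchar_ker_le
    (CuspForm.heckeAlgebra N 2 ∅).val.toRingHom I (fun t ht => by
      have : t = 0 := Subtype.ext (RingHom.mem_ker.mp ht)
      rw [this]; exact I.zero_mem)
  obtain ⟨f, h⟩ := exists_normalizedEigenform_of_eigenvector φ hg hφ
  exact ⟨φ, f, hker, h⟩

end Fermat.Agent.Hecke
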