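/-
Averaging measures on the upper half plane for finite index subgroups of SL(2, ℤ).

For a finite index subgroup `Δ`, `meanMeasure Δ` is a probability measure on `ℍ` such that the
integral of a `Δ`-invariant function does not depend on the choice of `Δ`, and is transported
correctly under conjugation by elements of `GL(2, ℝ)`.  It replaces integration over a
fundamental domain.
-/
import Mathlib.Analysis.Complex.UpperHalfPlane.Measure
import Mathlib.MeasureTheory.Measure.Lebesgue.Complex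
import Mathlib.MeasureTheory.Measure.Lebesgue.EqHaar
import Mathlib.NumberTheory.Modular
import Mathlib.NumberTheory.ModularForms.CongruenceSubgroups
import Mathlib.NumberTheory.ModularForms.ProperlyDiscontinuous
import Mathlib.Analysis.SpecialFunctions.ImproperIntegrals

set_option autoImplicit false

noncomputable section

open MeasureTheory ENNReal UpperHalfPlane Matrix.SpecialLinearGroup
open scoped MatrixGroups Modular Pointwise

namespace Fermat.Agent.Hecke

theorem countable_SL2Z : Countable SL(2, ℤ) :=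
  Function.Injective.countable (f := fun g : SL(2, ℤ) => (fun i j => g i j : Fin 2 → Fin 2 → ℤ))
    fun g h hgh => Matrix.SpecialLinearGroup.ext g h fun i j => congrFun₂ hgh i j

attribute [local instance] countable_SL2Z

theorem slZ_smul_eq (g : SL(2, ℤ)) (z : ℍ) : g • z = (mapGL ℝ g : GL (Fin 2) ℝ) • z := rfl

theorem measurePreserving_slZ (g : SL(2, ℤ)) :
    MeasurePreserving (fun z : ℍ => g • z) volume volume :=
  measurePreserving_smul (mapGL ℝ g : GL (Fin 2) ℝ) volume

@[fun_prop]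
theorem measurable_slZ_smul (g : SL(2, ℤ)) : Measurable (fun z : ℍ => g • z) :=
  (measurePreserving_slZ g).measurable

theorem measurableSet_fd : MeasurableSet (𝒟 : Set ℍ) :=
  (ModularGroup.isClosed_fd).measurableSet

/-- The set of `g ∈ SL(2, ℤ)` sending two given points of the fundamental domain to each other
is finite. -/
theorem finite_smul_mem_fd (z : ℍ) : {g : SL(2, ℤ) | g • z ∈ 𝒟}.Finite := by
  obtain ⟨g₀, hg₀⟩ := ModularGroup.exists_smul_mem_fd z
  have hfin : {g : SL(2, ℤ) | g • (g₀ • z) ∈ 𝒟}.Finite := by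
    open ModularGroup in
    refine Set.Finite.subset (s := ({1, -1, T, -T, T⁻¹, -T⁻¹, S, -S, T * S, -(T * S),
      T⁻¹ * S * T⁻¹, -(T⁻¹ * S * T⁻¹), S * T⁻¹, -(S * T⁻¹), S * T, -(S * T), T * S * T,
      -(T * S * T), T⁻¹ * S, -(T⁻¹ * S)} : Set SL(2, ℤ))) (Set.toFinite _) fun g hg => ?_
    simp only [Set.mem_insert_iff, Set.mem_singleton_iff]
    rcases cases_of_mem_fd_smul_mem_fd hg₀ hg with
      h | ⟨h, -⟩ | ⟨h, -⟩ | ⟨h, -⟩ | ⟨h, -⟩ | ⟨h, -⟩ | ⟨h, -⟩ | ⟨h, -⟩ | ⟨h, -⟩ | ⟨h, -⟩ <;>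
      rcases h with h | h <;> simp only [h, true_or, or_true]
  refine (hfin.image (fun h => h * g₀)).subset fun g hg => ⟨g * g₀⁻¹, ?_, by simp⟩
  show (g * g₀⁻¹) • g₀ • z ∈ 𝒟
  rwa [← mul_smul, inv_mul_cancel_right]

/-- Number of translates of `z` in the closed fundamental domain. -/
def fdCount (z : ℍ) : ℝ≥0∞ := ∑' g : SL(2, ℤ), (𝒟 : Set ℍ).indicator 1 (g • z)

theorem fdCount_smul (h : SL(2, ℤ)) (z : ℍ) : fdCount (h • z) = fdCount z := by
  unfold fdCount
  simp_rw [← mul_smul]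
  exact (Equiv.mulRight h).tsum_eq (fun g => (𝒟 : Set ℍ).indicator (1 : ℍ → ℝ≥0∞) (g • z))

theorem one_le_fdCount (z : ℍ) : 1 ≤ fdCount z := by
  obtain ⟨g, hg⟩ := ModularGroup.exists_smul_mem_fd z
  refine le_trans (le_of_eq ?_) (ENNReal.le_tsum g)
  rw [Set.indicator_of_mem hg, Pi.one_apply]

theorem fdCount_ne_top (z : ℍ) : fdCount z ≠ ∞ := by
  have hfin := finite_smul_mem_fd z
  unfold fdCount
  rw [tsum_eq_sum (s := hfin.toFinset) (fun g hg => Set.indicator_of_notMem (by simpa using hg) _)]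
  exact ENNReal.sum_ne_top.2 fun g _ => by
    by_cases h : g • z ∈ 𝒟
    · rw [Set.indicator_of_mem h]; exact one_ne_top
    · rw [Set.indicator_of_notMem h]; exact zero_ne_top

@[fun_prop]
theorem measurable_fdCount : Measurable fdCount := by
  unfold fdCount
  exact Measurable.ennreal_tsum fun g =>
    (measurable_one.indicator measurableSet_fd).comp (measurable_slZ_smul g)

/-- Weight function whose `SL(2, ℤ)` translates sum to `1`. -/
def fdWeight (z : ℍ) : ℝ≥0∞ := (𝒟 : Set ℍ).indicator (fun w => (fdCount w)⁻¹) z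

@[fun_prop]
theorem measurable_fdWeight : Measurable fdWeight :=
  measurable_fdCount.inv.indicator measurableSet_fd

theorem tsum_fdWeight (z : ℍ) : ∑' g : SL(2, ℤ), fdWeight (g • z) = 1 := by
  have h : ∀ g : SL(2, ℤ),
      fdWeight (g • z) = (𝒟 : Set ℍ).indicator 1 (g • z) * (fdCount z)⁻¹ := by
    intro g
    by_cases hg : g • z ∈ 𝒟
    · rw [fdWeight, Set.indicator_of_mem hg, Set.indicator_of_mem hg, fdCount_smul, Pi.one_apply,
        one_mul]
    · rw [fdWeight, Set.indicator_of_notMem hg, Set.indicator_of_notMem hg, zero_mul]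
  simp_rw [h, ENNReal.tsum_mul_right]
  exact ENNReal.mul_inv_cancel (one_pos.trans_le (one_le_fdCount z)).ne' (fdCount_ne_top z)

theorem volume_fd_lt_top : volume (𝒟 : Set ℍ) < ∞ := by
  rw [volume_eq_lintegral, ModularGroup.coe_fd]
  set B : Set ℂ := Complex.measurableEquivRealProd ⁻¹'
    (Set.Icc (-(1 / 2) : ℝ) (1 / 2) ×ˢ Set.Ioi (1 / 2 : ℝ)) with hB
  have hsub : {z : ℂ | 0 < z.im ∧ 1 ≤ ‖z‖ ∧ |z.re| ≤ 1 / 2} ⊆ B := by
    rintro z ⟨h0, h1, h2⟩
    refine Set.mem_prod.2 ⟨abs_le.1 h2, ?_⟩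
    show 1 / 2 < z.im
    have h3 : 1 ≤ z.re ^ 2 + z.im ^ 2 := by
      have h4 : Complex.normSq z = z.re * z.re + z.im * z.im := Complex.normSq_apply z
      have h5 : Complex.normSq z = ‖z‖ ^ 2 := Complex.normSq_eq_norm_sq z
      nlinarith
    nlinarith [abs_le.1 h2]
  refine lt_of_le_of_lt (lintegral_mono_set hsub) ?_
  have hmp := Complex.volume_preserving_equiv_real_prod
  have hcomp := hmp.setLIntegral_comp_preimage_emb
    Complex.measurableEquivRealProd.measurableEmbedding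
    (fun p : ℝ × ℝ => (((1 / ‖p.2‖₊) ^ 2 : NNReal) : ℝ≥0∞))
    (Set.Icc (-(1 / 2) : ℝ) (1 / 2) ×ˢ Set.Ioi (1 / 2 : ℝ))
  refine lt_of_eq_of_lt hcomp ?_
  rw [Measure.volume_eq_prod, ← Measure.prod_restrict, lintegral_prod _ (by fun_prop)]
  simp only [lintegral_const, Measure.restrict_apply_univ]
  refine ENNReal.mul_lt_top ?_ measure_Icc_lt_top
  have hint : IntegrableOn (fun t : ℝ => t ^ (-2 : ℝ)) (Set.Ioi (1 / 2)) :=
    integrableOn_Ioi_rpow_of_lt (by norm_num) (by norm_num)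
  refine lt_of_eq_of_lt (setLIntegral_congr_fun measurableSet_Ioi fun t ht => ?_)
    hint.hasFiniteIntegral
  have ht0 : (0 : ℝ) < t := lt_trans (by norm_num) (Set.mem_Ioi.1 ht)
  simp only [Real.rpow_neg ht0.le, Real.rpow_two, enorm_eq_nnnorm]
  norm_cast
  simp [nnnorm_pow]

/-- `u` has translates under `Δ` summing to the constant `c`. -/
structure IsWeight (Δ : Subgroup SL(2, ℤ)) (u : ℍ → ℝ≥0∞) (c : ℝ≥0∞) : Prop where
  measurable : Measurable u
  tsum_smul : ∀ z, ∑' d : Δ, u ((d : SL(2, ℤ)) • z) = c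

theorem isWeight_fdWeight : IsWeight ⊤ fdWeight 1 where
  measurable := measurable_fdWeight
  tsum_smul z := by
    rw [← tsum_fdWeight z]
    exact Subgroup.topEquiv.toEquiv.tsum_eq (fun g : SL(2, ℤ) => fdWeight (g • z))

/-- The bijection `(q, d) ↦ q.out * d`. -/
def cosetProdEquiv {G : Type*} [Group G] (H : Subgroup G) : (G ⧸ H) × H ≃ G where
  toFun p := p.1.out * p.2
  invFun g := (g, ⟨(g : G ⧸ H).out⁻¹ * g, QuotientGroup.eq.1 (QuotientGroup.out_eq' _)⟩)
  left_inv := by
    rintro ⟨q, d, hd⟩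
    have hq : ((q.out * d : G) : G ⧸ H) = q := by
      rw [QuotientGroup.mk_mul_of_mem _ hd, QuotientGroup.out_eq']
    ext <;> simp [hq]
  right_inv g := by simp

/-- A finite sum of translates of `fdWeight`: the weight attached to `Δ`. -/
def levelWeight (Δ : Subgroup SL(2, ℤ)) (z : ℍ) : ℝ≥0∞ :=
  ∑' q : SL(2, ℤ) ⧸ Δ, fdWeight (q.out • z)

theorem isWeight_levelWeight (Δ : Subgroup SL(2, ℤ)) : IsWeight Δ (levelWeight Δ) 1 where
  measurable :=
    haveI : Countable (SL(2, ℤ) ⧸ Δ) := Quotient.countable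
    Measurable.ennreal_tsum fun q => measurable_fdWeight.comp (measurable_slZ_smul _)
  tsum_smul z := by
    rw [← tsum_fdWeight z, ← (cosetProdEquiv Δ).tsum_eq,
      ENNReal.tsum_prod', ENNReal.tsum_comm]
    unfold levelWeight
    refine tsum_congr fun d => tsum_congr fun q => ?_
    rw [← mul_smul]
    rfl

/-- A weight for a smaller group is a weight for a larger group. -/
theorem IsWeight.mono {Δ' Δ : Subgroup SL(2, ℤ)} {u : ℍ → ℝ≥0∞} {c : ℝ≥0∞}
    (hu : IsWeight Δ' u c) (hle : Δ' ≤ Δ) [Δ'.FiniteIndex] :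
    IsWeight Δ u ((Δ'.relIndex Δ : ℕ) * c) where
  measurable := hu.measurable
  tsum_smul z := by
    let e : Δ ≃ (Δ ⧸ Δ'.subgroupOf Δ) × Δ'.subgroupOf Δ :=
      (Equiv.inv Δ).trans (cosetProdEquiv (Δ'.subgroupOf Δ)).symm
    rw [← e.symm.tsum_eq, ENNReal.tsum_prod']
    have h : ∀ q : Δ ⧸ Δ'.subgroupOf Δ,
        ∑' d : Δ'.subgroupOf Δ, u ((e.symm (q, d) : SL(2, ℤ)) • z) = c := by
      intro q
      rw [← hu.tsum_smul ((q.out : SL(2, ℤ))⁻¹ • z),
        ← ((Subgroup.subgroupOfEquivOfLe hle).toEquiv.trans (Equiv.inv Δ')).tsum_eq]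
      refine tsum_congr fun d => ?_
      rw [← mul_smul]
      congr 2
      simp [e, cosetProdEquiv]
    simp_rw [h]
    have : Finite (Δ ⧸ Δ'.subgroupOf Δ) := Subgroup.finite_quotient_of_finiteIndex
    rw [ENNReal.tsum_const, ENat.card_eq_coe_natCard]
    rfl

/-- Invariance of a set under a subgroup. -/
def SetInv (Δ : Subgroup SL(2, ℤ)) (s : Set ℍ) : Prop :=
  ∀ d ∈ Δ, ∀ z : ℍ, d • z ∈ s ↔ z ∈ s

theorem setInv_univ (Δ : Subgroup SL(2, ℤ)) : SetInv Δ Set.univ := fun _ _ _ => Iff.rfl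

/-- The unfolding identity: the integral over an invariant set of a weight only depends on
its total. -/
theorem IsWeight.setLIntegral_eq {Δ : Subgroup SL(2, ℤ)} {u v : ℍ → ℝ≥0∞} {a b : ℝ≥0∞}
    (hu : IsWeight Δ u a) (hv : IsWeight Δ v b) {s : Set ℍ} (hs : MeasurableSet s)
    (hinv : SetInv Δ s) :
    (∫⁻ z in s, u z) * b = (∫⁻ z in s, v z) * a := by
  set F : ℍ → ℝ≥0∞ := s.indicator 1 with hF
  have hFm : Measurable F := measurable_one.indicator hs
  have key : ∀ f : ℍ → ℝ≥0∞, ∫⁻ z in s, f z = ∫⁻ z, F z * f z := by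
    intro f
    rw [← lintegral_indicator hs]
    refine lintegral_congr fun z => ?_
    by_cases h : z ∈ s <;> simp [hF, h]
  have hFd : ∀ (d : Δ) (z : ℍ), F ((d : SL(2, ℤ)) • z) = F z := by
    intro d z
    by_cases h : z ∈ s
    · rw [hF, Set.indicator_of_mem h, Set.indicator_of_mem ((hinv d d.2 z).2 h)]
      rfl
    · rw [hF, Set.indicator_of_notMem h, Set.indicator_of_notMem (mt (hinv d d.2 z).1 h)]
  have expand : ∀ (f g : ℍ → ℝ≥0∞) (c : ℝ≥0∞), Measurable f → IsWeight Δ g c →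
      (∫⁻ z, F z * f z) * c = ∑' d : Δ, ∫⁻ z, F z * f z * g ((d : SL(2, ℤ)) • z) := by
    intro f g c hf hg
    rw [← lintegral_mul_const c (f := fun z => F z * f z) (hFm.mul hf),
      ← lintegral_tsum (f := fun (d : Δ) (z : ℍ) => F z * f z * g ((d : SL(2, ℤ)) • z))
        fun d => ((hFm.mul hf).mul
          (hg.measurable.comp (measurable_slZ_smul _))).aemeasurable]
    refine lintegral_congr fun z => ?_
    rw [ENNReal.tsum_mul_left, hg.tsum_smul z]
  rw [key, key, expand u v b hu.measurable hv, expand v u a hv.measurable hu,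
    ← (Equiv.inv Δ).tsum_eq]
  refine tsum_congr fun d => ?_
  rw [← (measurePreserving_slZ (d : SL(2, ℤ))).lintegral_comp
    (f := fun z => F z * u z * v (((Equiv.inv Δ) d : SL(2, ℤ)) • z))
    ((hFm.mul hu.measurable).mul (hv.measurable.comp (measurable_slZ_smul _)))]
  refine lintegral_congr fun z => ?_
  rw [hFd]
  simp only [Equiv.inv_apply, Subgroup.coe_inv, inv_smul_smul]
  ring

/-- The unnormalised measure attached to `Δ`. -/
def levelMeasure (Δ : Subgroup SL(2, ℤ)) : Measure ℍ := volume.withDensity (levelWeight Δ)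

theorem levelMeasure_apply (Δ : Subgroup SL(2, ℤ)) {s : Set ℍ} (hs : MeasurableSet s) :
    levelMeasure Δ s = ∫⁻ z in s, levelWeight Δ z :=
  withDensity_apply _ hs

theorem IsWeight.setLIntegral_eq_levelMeasure {Δ : Subgroup SL(2, ℤ)} {u : ℍ → ℝ≥0∞}
    {a : ℝ≥0∞} (hu : IsWeight Δ u a) {s : Set ℍ} (hs : MeasurableSet s) (hinv : SetInv Δ s) :
    ∫⁻ z in s, u z = a * levelMeasure Δ s := by
  have h := hu.setLIntegral_eq (isWeight_levelWeight Δ) hs hinv
  rw [mul_one] at h
  rw [h, levelMeasure_apply Δ hs, mul_comm]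

/-- The probability measure attached to `Δ`. -/
def meanMeasure (Δ : Subgroup SL(2, ℤ)) : Measure ℍ :=
  (levelMeasure Δ Set.univ)⁻¹ • levelMeasure Δ

theorem levelMeasure_univ (Δ : Subgroup SL(2, ℤ)) [Δ.FiniteIndex] :
    levelMeasure Δ Set.univ = Δ.index * ∫⁻ z, fdWeight z := by
  have h := ((isWeight_levelWeight Δ).mono (le_top : Δ ≤ ⊤)).setLIntegral_eq isWeight_fdWeight
    MeasurableSet.univ (setInv_univ _)
  simpa [levelMeasure_apply Δ MeasurableSet.univ, Subgroup.relIndex_top_right, mul_comm] using h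

theorem lintegral_fdWeight_ne_top : ∫⁻ z, fdWeight z ≠ ∞ := by
  refine ne_top_of_le_ne_top volume_fd_lt_top.ne ?_
  calc ∫⁻ z, fdWeight z ≤ ∫⁻ z, (𝒟 : Set ℍ).indicator 1 z := by
        refine lintegral_mono fun z => ?_
        by_cases h : z ∈ 𝒟 <;> simp [fdWeight, h, ENNReal.inv_le_one, one_le_fdCount]
    _ = volume (𝒟 : Set ℍ) := lintegral_indicator_one measurableSet_fd

/-- Every nonempty open subset of `ℍ` has positive volume. -/
theorem isOpenPosMeasure_volume : (volume : Measure ℍ).IsOpenPosMeasure := by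
  constructor
  intro U hU hne h0
  rw [volume_eq_lintegral, setLIntegral_eq_zero_iff
    (measurableEmbedding_coe.measurableSet_image.2 hU.measurableSet) (by fun_prop)] at h0
  refine (isOpenEmbedding_coe.isOpenMap U hU).measure_ne_zero (volume : Measure ℂ)
    (hne.image _) ?_
  rw [← nonpos_iff_eq_zero]
  refine le_of_le_of_eq (measure_mono fun x hx => ?_) (ae_iff.1 h0)
  obtain ⟨τ, hτ, rfl⟩ := hx
  simp only [Set.mem_setOf_eq, Classical.not_imp]
  exact ⟨⟨τ, hτ, rfl⟩, by simp [UpperHalfPlane.im_ne_zero]⟩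

theorem lintegral_fdWeight_ne_zero : ∫⁻ z, fdWeight z ≠ 0 := by
  intro h
  rw [lintegral_eq_zero_iff measurable_fdWeight] at h
  have := isOpenPosMeasure_volume
  refine (ModularGroup.isOpen_fdo).measure_ne_zero (volume : Measure ℍ) ?_ ?_
  · refine ⟨⟨2 * Complex.I, by simp⟩, ?_⟩
    constructor <;> norm_num [UpperHalfPlane.re]
  · rw [← nonpos_iff_eq_zero]
    refine le_of_le_of_eq (measure_mono fun x hx => ?_) (ae_iff.1 h)
    simp [fdWeight, ModularGroup.fdo_subset_fd hx, fdCount_ne_top x]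

theorem levelMeasure_univ_ne_zero (Δ : Subgroup SL(2, ℤ)) [Δ.FiniteIndex] :
    levelMeasure Δ Set.univ ≠ 0 := by
  rw [levelMeasure_univ]
  exact mul_ne_zero (Nat.cast_ne_zero.2 Subgroup.FiniteIndex.index_ne_zero)
    lintegral_fdWeight_ne_zero

theorem levelMeasure_univ_ne_top (Δ : Subgroup SL(2, ℤ)) [Δ.FiniteIndex] :
    levelMeasure Δ Set.univ ≠ ∞ := by
  rw [levelMeasure_univ]
  exact ENNReal.mul_ne_top (ENNReal.natCast_ne_top _) lintegral_fdWeight_ne_top

theorem isProbabilityMeasure_meanMeasure (Δ : Subgroup SL(2, ℤ)) [Δ.FiniteIndex] :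
    IsProbabilityMeasure (meanMeasure Δ) :=
  ⟨by rw [meanMeasure, Measure.smul_apply, smul_eq_mul,
    ENNReal.inv_mul_cancel (levelMeasure_univ_ne_zero Δ) (levelMeasure_univ_ne_top Δ)]⟩

/-- Comparison of the averaging measures of nested groups on invariant sets. -/
theorem meanMeasure_apply_of_le {Δ' Δ : Subgroup SL(2, ℤ)} [Δ'.FiniteIndex] (hle : Δ' ≤ Δ)
    {s : Set ℍ} (hs : MeasurableSet s) (hinv : SetInv Δ s) :
    meanMeasure Δ' s = meanMeasure Δ s := by
  have : Δ.FiniteIndex := Subgroup.finiteIndex_of_le hle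
  have key : ∀ {t : Set ℍ}, MeasurableSet t → SetInv Δ t →
      levelMeasure Δ' t = (Δ'.relIndex Δ : ℕ) * levelMeasure Δ t := by
    intro t ht hinvt
    rw [levelMeasure_apply Δ' ht,
      ((isWeight_levelWeight Δ').mono hle).setLIntegral_eq_levelMeasure ht hinvt, mul_one]
  have hr : (Δ'.relIndex Δ : ℝ≥0∞) ≠ 0 :=
    Nat.cast_ne_zero.2 (Subgroup.FiniteIndex.index_ne_zero (H := Δ'.subgroupOf Δ))
  simp only [meanMeasure, Measure.smul_apply, smul_eq_mul]
  rw [key hs hinv, key MeasurableSet.univ (setInv_univ _),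
    ENNReal.mul_inv (Or.inl hr) (Or.inl (ENNReal.natCast_ne_top _)), mul_mul_mul_comm,
    ENNReal.inv_mul_cancel hr (ENNReal.natCast_ne_top _), one_mul]

/-- Invariance of a function under a subgroup. -/
def FunInv {E : Type*} (Δ : Subgroup SL(2, ℤ)) (F : ℍ → E) : Prop :=
  ∀ d ∈ Δ, ∀ z : ℍ, F (d • z) = F z

theorem FunInv.mono {E : Type*} {Δ' Δ : Subgroup SL(2, ℤ)} {F : ℍ → E} (hF : FunInv Δ F)
    (hle : Δ' ≤ Δ) : FunInv Δ' F :=
  fun d hd => hF d (hle hd)

theorem FunInv.setInv_preimage {E : Type*} {Δ : Subgroup SL(2, ℤ)} {F : ℍ → E}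
    (hF : FunInv Δ F) (s : Set E) : SetInv Δ (F ⁻¹' s) := by
  intro d hd z
  simp only [Set.mem_preimage, hF d hd z]

theorem integral_meanMeasure_eq_of_le {Δ' Δ : Subgroup SL(2, ℤ)} [Δ'.FiniteIndex] (hle : Δ' ≤ Δ)
    {F : ℍ → ℂ} (hF : Continuous F) (hinv : FunInv Δ F) :
    ∫ z, F z ∂meanMeasure Δ' = ∫ z, F z ∂meanMeasure Δ := by
  have hmap : (meanMeasure Δ').map F = (meanMeasure Δ).map F := by
    ext s hs
    rw [Measure.map_apply hF.measurable hs, Measure.map_apply hF.measurable hs,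
      meanMeasure_apply_of_le hle (hF.measurable hs) (hinv.setInv_preimage s)]
  have e : ∀ μ : Measure ℍ, ∫ z, F z ∂μ = ∫ w, w ∂(μ.map F) := fun μ =>
    (integral_map hF.measurable.aemeasurable aestronglyMeasurable_id).symm
  rw [e, e, hmap]

theorem integral_meanMeasure_eq {Δ' Δ : Subgroup SL(2, ℤ)} [Δ'.FiniteIndex] [Δ.FiniteIndex]
    {F : ℍ → ℂ} (hF : Continuous F) (h' : FunInv Δ' F) (h : FunInv Δ F) :
    ∫ z, F z ∂meanMeasure Δ' = ∫ z, F z ∂meanMeasure Δ :=
  (integral_meanMeasure_eq_of_le (Δ' := Δ' ⊓ Δ) inf_le_left hF h').symm.trans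
    (integral_meanMeasure_eq_of_le inf_le_right hF h)

/-- Transport along `α ∈ GL(2, ℝ)` carrying the action of `Δ` to the action of `Δ'`. -/
theorem integral_meanMeasure_comp {Δ Δ' : Subgroup SL(2, ℤ)} (α : GL (Fin 2) ℝ) (e : Δ ≃ Δ')
    (he : ∀ (d : Δ) (z : ℍ), (e d : SL(2, ℤ)) • (α • z) = α • ((d : SL(2, ℤ)) • z))
    {F : ℍ → ℂ} (hF : Continuous F) (hinv : FunInv Δ' F) :
    ∫ z, F (α • z) ∂meanMeasure Δ = ∫ z, F z ∂meanMeasure Δ' := by
  have hmp : MeasurePreserving (fun z : ℍ => α • z) volume volume := measurePreserving_smul α volume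
  have hmp' : MeasurePreserving (fun z : ℍ => α⁻¹ • z) volume volume :=
    measurePreserving_smul α⁻¹ volume
  have hw : IsWeight Δ' (fun z => levelWeight Δ (α⁻¹ • z)) 1 := by
    refine ⟨(isWeight_levelWeight Δ).measurable.comp hmp'.measurable, fun z => ?_⟩
    rw [← e.tsum_eq, ← (isWeight_levelWeight Δ).tsum_smul (α⁻¹ • z)]
    refine tsum_congr fun d => ?_
    congr 1
    rw [inv_smul_eq_iff, ← he, smul_inv_smul]
  have key : ∀ {s : Set ℍ}, MeasurableSet s → SetInv Δ' s →
      levelMeasure Δ ((fun z : ℍ => α • z) ⁻¹' s) = levelMeasure Δ' s := by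
    intro s hs hinvs
    rw [levelMeasure_apply Δ (hmp.measurable hs), ← one_mul (levelMeasure Δ' s),
      ← hw.setLIntegral_eq_levelMeasure hs hinvs,
      ← hmp.setLIntegral_comp_preimage hs hw.measurable]
    refine lintegral_congr fun z => ?_
    simp
  have hmap : (meanMeasure Δ).map (fun z => F (α • z)) = (meanMeasure Δ').map F := by
    ext s hs
    have hm : Measurable fun z => F (α • z) := hF.measurable.comp hmp.measurable
    rw [Measure.map_apply hF.measurable hs, Measure.map_apply hm hs]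
    simp only [meanMeasure, Measure.smul_apply, smul_eq_mul]
    have h1 := key (hF.measurable hs) (hinv.setInv_preimage s)
    have h2 := key MeasurableSet.univ (setInv_univ _)
    rw [Set.preimage_univ] at h2
    rw [← h1, ← h2]
    rfl
  calc ∫ z, F (α • z) ∂meanMeasure Δ
      = ∫ w, w ∂((meanMeasure Δ).map fun z => F (α • z)) :=
        (integral_map (φ := fun z => F (α • z))
          (hF.measurable.comp hmp.measurable).aemeasurable aestronglyMeasurable_id).symm
    _ = ∫ z, F z ∂meanMeasure Δ' := by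
        rw [hmap]; exact integral_map hF.measurable.aemeasurable aestronglyMeasurable_id

/-- A `Δ`-invariant continuous nonnegative bounded function with zero mean vanishes. -/
theorem eq_zero_of_integral_meanMeasure_eq_zero {Δ : Subgroup SL(2, ℤ)} [Δ.FiniteIndex]
    {F : ℍ → ℝ} (hF : Continuous F) (hinv : FunInv Δ F) (hnn : ∀ z, 0 ≤ F z)
    (hbd : ∃ C, ∀ z, ‖F z‖ ≤ C) (h : ∫ z, F z ∂meanMeasure Δ = 0) (z : ℍ) : F z = 0 := by
  have := isProbabilityMeasure_meanMeasure Δ
  obtain ⟨C, hC⟩ := hbd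
  have hint : Integrable F (meanMeasure Δ) :=
    Integrable.of_bound hF.aestronglyMeasurable C (Filter.Eventually.of_forall hC)
  have h0 : meanMeasure Δ {z | F z ≠ 0} = 0 :=
    ae_iff.1 ((integral_eq_zero_iff_of_nonneg hnn hint).1 h)
  set U : Set ℍ := {z | F z ≠ 0} with hU
  have hUo : IsOpen U := isOpen_ne_fun hF continuous_const
  have hUm := hUo.measurableSet
  rw [meanMeasure, Measure.smul_apply, smul_eq_mul, mul_eq_zero,
    or_iff_right (ENNReal.inv_ne_zero.2 (levelMeasure_univ_ne_top Δ)),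
    levelMeasure_apply Δ hUm, setLIntegral_eq_zero_iff hUm (isWeight_levelWeight Δ).measurable] at h0
  -- hence almost everywhere the orbit sums over `Δ` of the weight vanish on `U`, which is absurd
  have h1 : ∀ᵐ z : ℍ, ∀ d : Δ, (d : SL(2, ℤ)) • z ∈ U → levelWeight Δ ((d : SL(2, ℤ)) • z) = 0 :=
    ae_all_iff.2 fun d => (measurePreserving_slZ (d : SL(2, ℤ))).quasiMeasurePreserving.ae h0
  have h2 : volume U = 0 := by
    rw [← nonpos_iff_eq_zero]
    refine le_of_le_of_eq (measure_mono fun x hx => ?_) (ae_iff.1 h1)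
    intro hall
    refine one_ne_zero (α := ℝ≥0∞) ?_
    rw [← (isWeight_levelWeight Δ).tsum_smul x, ENNReal.tsum_eq_zero]
    exact fun d => hall d (by show F _ ≠ 0; rw [hinv d d.2 x]; exact hx)
  have := isOpenPosMeasure_volume
  by_contra hz
  exact hUo.measure_ne_zero (volume : Measure ℍ) ⟨z, hz⟩ h2

end Fermat.Agent.Hecke
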