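/-
The Petersson pairing on functions of some finite index level, its invariance under
`GL(2, ℚ)⁺`, and self-adjointness of the Hecke operators at primes not dividing the level.
-/
import Fermat.Agent.Hecke.PeterssonMean
import Mathlib.NumberTheory.ModularForms.Bounds
import Fermat.Prelude.Def_ModularForm_HeckeOperatorForms

set_option autoImplicit false

noncomputable section

open MeasureTheory UpperHalfPlane ModularForm Matrix.SpecialLinearGroup CongruenceSubgroup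
open scoped MatrixGroups ModularForm Manifold Pointwise ComplexConjugate

namespace Fermat.Agent.Hecke

attribute [local instance] countable_SL2Z

/-- Continuous, invariant of some finite index level, and `|h|² y^k` bounded. -/
structure IsAdmissible (k : ℤ) (h : ℍ → ℂ) : Prop where
  continuous : Continuous h
  bounded : ∃ C, ∀ z, ‖petersson k h h z‖ ≤ C
  level : ∃ Δ : Subgroup SL(2, ℤ), Δ.FiniteIndex ∧ ∀ d ∈ Δ, h ∣[k] d = h

theorem norm_petersson_eq (k : ℤ) (a b : ℍ → ℂ) (z : ℍ) :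
    ‖petersson k a b z‖ = ‖a z‖ * ‖b z‖ * z.im ^ k := by
  simp [petersson, abs_of_pos z.im_pos]

theorem norm_petersson_le (k : ℤ) (a b : ℍ → ℂ) (z : ℍ) :
    2 * ‖petersson k a b z‖ ≤ ‖petersson k a a z‖ + ‖petersson k b b z‖ := by
  simp only [norm_petersson_eq]
  nlinarith [mul_nonneg (sq_nonneg (‖a z‖ - ‖b z‖)) (zpow_pos z.im_pos k).le]

theorem IsAdmissible.add {k : ℤ} {a b : ℍ → ℂ} (ha : IsAdmissible k a) (hb : IsAdmissible k b) :
    IsAdmissible k (a + b) where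
  continuous := ha.continuous.add hb.continuous
  bounded := by
    obtain ⟨C, hC⟩ := ha.bounded
    obtain ⟨C', hC'⟩ := hb.bounded
    refine ⟨2 * C + 2 * C', fun z => ?_⟩
    have h1 := hC z
    have h2 := hC' z
    simp only [norm_petersson_eq] at h1 h2 ⊢
    have hy := (zpow_pos z.im_pos k).le
    have h3 : ‖(a + b) z‖ * ‖(a + b) z‖ ≤ 2 * (‖a z‖ * ‖a z‖) + 2 * (‖b z‖ * ‖b z‖) := by
      rw [Pi.add_apply]
      nlinarith [mul_self_le_mul_self (norm_nonneg _) (norm_add_le (a z) (b z)),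
        sq_nonneg (‖a z‖ - ‖b z‖)]
    nlinarith [mul_le_mul_of_nonneg_right h3 hy]
  level := by
    obtain ⟨Δ, hΔ, h⟩ := ha.level
    obtain ⟨Δ', hΔ', h'⟩ := hb.level
    exact ⟨Δ ⊓ Δ', inferInstance, fun d hd => by
      rw [SlashAction.add_slash, h d hd.1, h' d hd.2]⟩

theorem IsAdmissible.zero (k : ℤ) : IsAdmissible k 0 where
  continuous := continuous_const
  bounded := ⟨0, fun z => by simp [norm_petersson_eq]⟩
  level := ⟨⊤, inferInstance, fun d _ => SlashAction.zero_slash k d⟩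

theorem IsAdmissible.smul {k : ℤ} {a : ℍ → ℂ} (ha : IsAdmissible k a) (c : ℂ) :
    IsAdmissible k (c • a) where
  continuous := ha.continuous.const_smul c
  bounded := by
    obtain ⟨C, hC⟩ := ha.bounded
    refine ⟨‖c‖ * ‖c‖ * C, fun z => ?_⟩
    have h1 := hC z
    simp only [norm_petersson_eq, Pi.smul_apply, smul_eq_mul, norm_mul] at h1 ⊢
    nlinarith [mul_le_mul_of_nonneg_left h1 (mul_self_nonneg ‖c‖)]
  level := by
    obtain ⟨Δ, hΔ, h⟩ := ha.level
    exact ⟨Δ, hΔ, fun d hd => by rw [SL_smul_slash, h d hd]⟩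

theorem IsAdmissible.sum {k : ℤ} {ι : Type*} (s : Finset ι) {a : ι → ℍ → ℂ}
    (ha : ∀ i ∈ s, IsAdmissible k (a i)) : IsAdmissible k (∑ i ∈ s, a i) :=
  Finset.sum_induction a (IsAdmissible k) (fun _ _ => IsAdmissible.add) (IsAdmissible.zero k) ha

theorem isAdmissible_of_cuspForm {k : ℤ} {Γ : Subgroup (GL (Fin 2) ℝ)} [Γ.IsArithmetic]
    {F : Type*} [FunLike F ℍ ℂ] [CuspFormClass F Γ k] (f : F) : IsAdmissible k ⇑f where
  continuous := (CuspFormClass.holo (Γ := Γ) (k := k) f).continuous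
  bounded := CuspFormClass.petersson_bounded_left k Γ f f
  level := ⟨Γ.comap (mapGL ℝ), inferInstance, fun d hd => by
    rw [ModularForm.SL_slash]
    exact SlashInvariantFormClass.slash_action_eq f (mapGL ℝ d) hd⟩

/-- `α` comes from an element of `GL(2, ℚ)` and has positive determinant. -/
def IsRatPos (α : GL (Fin 2) ℝ) : Prop :=
  0 < (α.det : ℝ) ∧ ∃ g : GL (Fin 2) ℚ, g.map (Rat.castHom ℝ) = α

theorem isRatPos_mapGL (γ : SL(2, ℤ)) : IsRatPos (mapGL ℝ γ) := by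
  refine ⟨by simp, mapGL ℚ γ, ?_⟩
  rw [(show Rat.castHom ℝ = algebraMap ℚ ℝ by rfl), map_mapGL]

theorem finiteIndex_conjGL_of_isRatPos {α : GL (Fin 2) ℝ} (hα : IsRatPos α)
    (Δ : Subgroup SL(2, ℤ)) [Δ.FiniteIndex] : (conjGL Δ α).FiniteIndex := by
  obtain ⟨-, g, rfl⟩ := hα
  have h : (ConjAct.toConjAct (g.map (Rat.castHom ℝ))⁻¹ • Δ.map (mapGL ℝ)).IsArithmetic := by
    have := Subgroup.IsArithmetic.conj (Δ.map (mapGL ℝ)) g⁻¹
    rwa [map_inv] at this
  exact Subgroup.IsArithmetic.finiteIndex_comap _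

theorem slash_SL_eq (k : ℤ) (h : ℍ → ℂ) (d : SL(2, ℤ)) :
    h ∣[k] d = h ∣[k] (mapGL ℝ d : GL (Fin 2) ℝ) := rfl

theorem slash_eq_of_mem_conjGL {k : ℤ} {h : ℍ → ℂ} {Δ : Subgroup SL(2, ℤ)}
    (hh : ∀ d ∈ Δ, h ∣[k] d = h) (α : GL (Fin 2) ℝ) {x : SL(2, ℤ)} (hx : x ∈ conjGL Δ α) :
    (h ∣[k] α) ∣[k] x = h ∣[k] α := by
  obtain ⟨y, hy, hyx⟩ := mem_conjGL.1 hx
  rw [slash_SL_eq, ← SlashAction.slash_mul]
  have : α * mapGL ℝ x = mapGL ℝ y * α := by
    rw [show (mapGL ℝ y : GL (Fin 2) ℝ) = α * mapGL ℝ x * α⁻¹ from hyx, inv_mul_cancel_right]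
  rw [this, SlashAction.slash_mul, ← slash_SL_eq, hh y hy]

theorem IsAdmissible.slash {k : ℤ} {h : ℍ → ℂ} (hh : IsAdmissible k h) {α : GL (Fin 2) ℝ}
    (hα : IsRatPos α) : IsAdmissible k (h ∣[k] α) where
  continuous := by
    have hσ : σ α = .refl ℝ ℂ := by rw [σ, if_pos hα.1]
    have hsm : Continuous fun z : ℍ => α • z := continuous_const_smul α
    have hcont := hh.continuous
    have he : (h ∣[k] α) = fun z : ℍ =>
        h (α • z) * ((|α.det.val| : ℝ) : ℂ) ^ (k - 1) * denom α z ^ (-k) := by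
      ext z
      rw [ModularForm.slash_apply, hσ]
      rfl
    rw [he]
    refine ((hcont.comp hsm).mul continuous_const).mul ?_
    refine Continuous.zpow₀ ?_ _ fun z => Or.inl (denom_ne_zero α z)
    unfold denom
    fun_prop
  bounded := by
    obtain ⟨C, hC⟩ := hh.bounded
    refine ⟨|α.det.val| ^ (k - 2) * C, fun z => ?_⟩
    rw [petersson_slash, norm_mul, norm_σ, norm_zpow, Complex.norm_real, Real.norm_eq_abs, abs_abs]
    exact mul_le_mul_of_nonneg_left (hC _) (zpow_nonneg (abs_nonneg _) _)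
  level := by
    obtain ⟨Δ, hΔ, h'⟩ := hh.level
    exact ⟨conjGL Δ α, finiteIndex_conjGL_of_isRatPos hα Δ,
      fun x hx => slash_eq_of_mem_conjGL h' α hx⟩

theorem continuous_petersson {k : ℤ} {a b : ℍ → ℂ} (ha : IsAdmissible k a)
    (hb : IsAdmissible k b) : Continuous (petersson k a b) :=
  petersson_continuous k ha.continuous hb.continuous

theorem integrable_petersson {k : ℤ} {a b : ℍ → ℂ} (ha : IsAdmissible k a)
    (hb : IsAdmissible k b) (μ : Measure ℍ) [IsFiniteMeasure μ] :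
    Integrable (petersson k a b) μ := by
  obtain ⟨C, hC⟩ := ha.bounded
  obtain ⟨C', hC'⟩ := hb.bounded
  refine Integrable.of_bound (continuous_petersson ha hb).aestronglyMeasurable ((C + C') / 2)
    (Filter.Eventually.of_forall fun z => ?_)
  linarith [norm_petersson_le k a b z, hC z, hC' z]

theorem funInv_petersson {k : ℤ} {a b : ℍ → ℂ} {Δ : Subgroup SL(2, ℤ)}
    (ha : ∀ d ∈ Δ, a ∣[k] d = a) (hb : ∀ d ∈ Δ, b ∣[k] d = b) :
    FunInv Δ (petersson k a b) := by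
  intro d hd z
  rw [← petersson_slash_SL, ha d hd, hb d hd]

theorem exists_level_petersson {k : ℤ} {a b : ℍ → ℂ} (ha : IsAdmissible k a)
    (hb : IsAdmissible k b) :
    ∃ Δ : Subgroup SL(2, ℤ), Δ.FiniteIndex ∧ FunInv Δ (petersson k a b) := by
  obtain ⟨Δ, hΔ, h⟩ := ha.level
  obtain ⟨Δ', hΔ', h'⟩ := hb.level
  exact ⟨Δ ⊓ Δ', inferInstance,
    funInv_petersson (fun d hd => h d hd.1) (fun d hd => h' d hd.2)⟩

open Classical in
/-- The Petersson pairing, normalised as a mean value. Conjugate linear in the first argument. -/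
def petPair (k : ℤ) (a b : ℍ → ℂ) : ℂ :=
  if H : ∃ Δ : Subgroup SL(2, ℤ), Δ.FiniteIndex ∧ FunInv Δ (petersson k a b) then
    ∫ z, petersson k a b z ∂meanMeasure H.choose
  else 0

theorem petPair_eq_integral {k : ℤ} {a b : ℍ → ℂ} (ha : IsAdmissible k a) (hb : IsAdmissible k b)
    (Δ : Subgroup SL(2, ℤ)) [Δ.FiniteIndex] (hΔ : FunInv Δ (petersson k a b)) :
    petPair k a b = ∫ z, petersson k a b z ∂meanMeasure Δ := by
  have H : ∃ Δ : Subgroup SL(2, ℤ), Δ.FiniteIndex ∧ FunInv Δ (petersson k a b) :=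
    exists_level_petersson ha hb
  rw [petPair, dif_pos H]
  have := H.choose_spec.1
  exact integral_meanMeasure_eq (continuous_petersson ha hb) H.choose_spec.2 hΔ

theorem petPair_conj {k : ℤ} {a b : ℍ → ℂ} (ha : IsAdmissible k a) (hb : IsAdmissible k b) :
    conj (petPair k a b) = petPair k b a := by
  obtain ⟨Δ, hΔ, h⟩ := exists_level_petersson ha hb
  have h' : FunInv Δ (petersson k b a) := fun d hd z => by
    rw [petersson_symm k a b, petersson_symm k a b z, h d hd z]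
  rw [petPair_eq_integral ha hb Δ h, petPair_eq_integral hb ha Δ h', ← integral_conj]
  simp_rw [← petersson_symm]

theorem petPair_add_left {k : ℤ} {a a' b : ℍ → ℂ} (ha : IsAdmissible k a)
    (ha' : IsAdmissible k a') (hb : IsAdmissible k b) :
    petPair k (a + a') b = petPair k a b + petPair k a' b := by
  obtain ⟨Δ₁, hΔ₁, h₁⟩ := exists_level_petersson ha hb
  obtain ⟨Δ₂, hΔ₂, h₂⟩ := exists_level_petersson ha' hb
  have hp : petersson k (a + a') b = fun z => petersson k a b z + petersson k a' b z := by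
    ext z
    simp [petersson, add_mul]
  have h : FunInv (Δ₁ ⊓ Δ₂) (petersson k (a + a') b) := by
    intro d hd z
    simp only [hp]
    rw [h₁ d hd.1 z, h₂ d hd.2 z]
  have := isProbabilityMeasure_meanMeasure (Δ₁ ⊓ Δ₂)
  rw [petPair_eq_integral (ha.add ha') hb _ h,
    petPair_eq_integral ha hb (Δ₁ ⊓ Δ₂) (h₁.mono inf_le_left),
    petPair_eq_integral ha' hb (Δ₁ ⊓ Δ₂) (h₂.mono inf_le_right), hp]
  exact integral_add (integrable_petersson ha hb _) (integrable_petersson ha' hb _)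

theorem petPair_smul_left {k : ℤ} {a b : ℍ → ℂ} (ha : IsAdmissible k a)
    (hb : IsAdmissible k b) (c : ℂ) :
    petPair k (c • a) b = conj c * petPair k a b := by
  obtain ⟨Δ, hΔ, h⟩ := exists_level_petersson ha hb
  have hp : petersson k (c • a) b = fun z => conj c * petersson k a b z := by
    ext z
    simp [petersson]
    ring
  have h' : FunInv Δ (petersson k (c • a) b) := fun d hd z => by
    simp only [hp]
    rw [h d hd z]
  rw [petPair_eq_integral (ha.smul c) hb Δ h', petPair_eq_integral ha hb Δ h, hp]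
  exact integral_const_mul _ _

theorem petPair_zero_left {k : ℤ} {b : ℍ → ℂ} (hb : IsAdmissible k b) : petPair k 0 b = 0 := by
  simpa using petPair_smul_left (IsAdmissible.zero k) hb 0

theorem petPair_smul_right {k : ℤ} {a b : ℍ → ℂ} (ha : IsAdmissible k a)
    (hb : IsAdmissible k b) (c : ℂ) : petPair k a (c • b) = c * petPair k a b := by
  rw [← petPair_conj (hb.smul c) ha, petPair_smul_left hb ha, map_mul, Complex.conj_conj,
    petPair_conj hb ha]

theorem petPair_sum_left {k : ℤ} {ι : Type*} (s : Finset ι) {a : ι → ℍ → ℂ} {b : ℍ → ℂ}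
    (ha : ∀ i ∈ s, IsAdmissible k (a i)) (hb : IsAdmissible k b) :
    petPair k (∑ i ∈ s, a i) b = ∑ i ∈ s, petPair k (a i) b := by
  classical
  induction s using Finset.induction_on with
  | empty => simpa using petPair_zero_left hb
  | insert i s hi ih =>
    rw [Finset.sum_insert hi, Finset.sum_insert hi,
      petPair_add_left (ha i (Finset.mem_insert_self i s))
        (IsAdmissible.sum s fun j hj => ha j (Finset.mem_insert_of_mem hj)) hb,
      ih fun j hj => ha j (Finset.mem_insert_of_mem hj)]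

/-- `GL(2, ℚ)⁺` acts by similitudes for the Petersson pairing. -/
theorem petPair_slash {k : ℤ} {a b : ℍ → ℂ} (ha : IsAdmissible k a) (hb : IsAdmissible k b)
    {α : GL (Fin 2) ℝ} (hα : IsRatPos α) :
    petPair k (a ∣[k] α) (b ∣[k] α) = ((α.det.val : ℝ) : ℂ) ^ (k - 2) * petPair k a b := by
  obtain ⟨Δ₀, hΔ₀, h₀⟩ := exists_level_petersson ha hb
  have hα' : IsRatPos α⁻¹ := by
    obtain ⟨hd, g, rfl⟩ := hα
    refine ⟨?_, g⁻¹, map_inv _ _⟩
    rw [map_inv, Units.val_inv_eq_inv_val]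
    exact inv_pos.2 hd
  set Δ : Subgroup SL(2, ℤ) := conjGL Δ₀ α with hΔdef
  set Δ' : Subgroup SL(2, ℤ) := Δ₀ ⊓ conjGL ⊤ α⁻¹ with hΔ'def
  have : Δ.FiniteIndex := finiteIndex_conjGL_of_isRatPos hα Δ₀
  have : (conjGL ⊤ α⁻¹).FiniteIndex := finiteIndex_conjGL_of_isRatPos hα' ⊤
  have hmem : ∀ x : Δ, ∃ y : Δ',
      (mapGL ℝ (y : SL(2, ℤ)) : GL (Fin 2) ℝ) = α * mapGL ℝ (x : SL(2, ℤ)) * α⁻¹ := by
    rintro ⟨x, hx⟩
    obtain ⟨y, hy, hyx⟩ := mem_conjGL.1 hx
    have hyx' : (mapGL ℝ y : GL (Fin 2) ℝ) = α * mapGL ℝ x * α⁻¹ := hyx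
    refine ⟨⟨y, hy, mem_conjGL.2 ⟨x, Subgroup.mem_top x, ?_⟩⟩, hyx'⟩
    show (mapGL ℝ x : GL (Fin 2) ℝ) = α⁻¹ * mapGL ℝ y * α⁻¹⁻¹
    rw [hyx']
    group
  choose e he using hmem
  have hinj : Function.Injective e := by
    intro x x' h
    have h1 := he x
    rw [h, he x'] at h1
    simp only [mul_left_inj, mul_right_inj] at h1
    exact Subtype.ext (mapGL_injective h1).symm
  have hsurj : Function.Surjective e := by
    rintro ⟨y, hy, hy'⟩
    obtain ⟨x, -, hxy⟩ := mem_conjGL.1 hy'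
    have hxy' : (mapGL ℝ x : GL (Fin 2) ℝ) = α⁻¹ * mapGL ℝ y * α⁻¹⁻¹ := hxy
    have hx : x ∈ Δ := mem_conjGL.2 ⟨y, hy, by
      show (mapGL ℝ y : GL (Fin 2) ℝ) = α * mapGL ℝ x * α⁻¹
      rw [hxy']; group⟩
    refine ⟨⟨x, hx⟩, Subtype.ext (mapGL_injective (S := ℝ) ?_)⟩
    rw [he, hxy']
    group
  have hcomp : ∫ z, petersson k a b (α • z) ∂meanMeasure Δ
      = ∫ z, petersson k a b z ∂meanMeasure Δ' := by
    refine integral_meanMeasure_comp α (Equiv.ofBijective e ⟨hinj, hsurj⟩) (fun x z => ?_)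
      (continuous_petersson ha hb) (h₀.mono inf_le_left)
    rw [slZ_smul_eq, slZ_smul_eq, ← mul_smul, ← mul_smul]
    congr 1
    show (mapGL ℝ (e x : SL(2, ℤ)) : GL (Fin 2) ℝ) * α = α * mapGL ℝ (x : SL(2, ℤ))
    rw [he, inv_mul_cancel_right]
  have hp : petersson k (a ∣[k] α) (b ∣[k] α) =
      fun z => ((α.det.val : ℝ) : ℂ) ^ (k - 2) * petersson k a b (α • z) := by
    ext z
    rw [petersson_slash, abs_of_pos hα.1, σ, if_pos hα.1]
    rfl
  have h : FunInv Δ (petersson k (a ∣[k] α) (b ∣[k] α)) := by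
    intro x hx z
    simp only [hp]
    congr 1
    obtain ⟨y, hy, hyx⟩ := mem_conjGL.1 hx
    have : α • x • z = y • α • z := by
      rw [slZ_smul_eq, slZ_smul_eq, ← mul_smul, ← mul_smul,
        show (mapGL ℝ y : GL (Fin 2) ℝ) = α * mapGL ℝ x * α⁻¹ from hyx, inv_mul_cancel_right]
    rw [this, h₀ y hy]
  rw [petPair_eq_integral (ha.slash hα) (hb.slash hα) Δ h,
    petPair_eq_integral ha hb Δ' (h₀.mono inf_le_left), hp, integral_const_mul, hcomp]

theorem petPair_slash_SL {k : ℤ} {a b : ℍ → ℂ} (ha : IsAdmissible k a) (hb : IsAdmissible k b)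
    (γ : SL(2, ℤ)) : petPair k (a ∣[k] γ) (b ∣[k] γ) = petPair k a b := by
  rw [slash_SL_eq, slash_SL_eq, petPair_slash ha hb (isRatPos_mapGL γ)]
  simp

/-- Positive definiteness. -/
theorem eq_zero_of_petPair_self_eq_zero {k : ℤ} {a : ℍ → ℂ} (ha : IsAdmissible k a)
    (h : petPair k a a = 0) : a = 0 := by
  obtain ⟨Δ, hΔ, hinv⟩ := exists_level_petersson ha ha
  rw [petPair_eq_integral ha ha Δ hinv] at h
  have hreal : ∀ z, petersson k a a z = ((‖petersson k a a z‖ : ℝ) : ℂ) := by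
    intro z
    rw [norm_petersson_eq, petersson, ← Complex.normSq_eq_conj_mul_self,
      Complex.normSq_eq_norm_sq, sq]
    push_cast
    ring
  rw [integral_congr_ae (Filter.Eventually.of_forall hreal), integral_complex_ofReal,
    Complex.ofReal_eq_zero] at h
  obtain ⟨C, hC⟩ := ha.bounded
  funext z
  have := eq_zero_of_integral_meanMeasure_eq_zero (continuous_petersson ha ha).norm
    (fun d hd w => by simp only [hinv d hd w]) (fun w => norm_nonneg _)
    ⟨C, fun w => by rw [norm_norm]; exact hC w⟩ h z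
  rw [norm_petersson_eq] at this
  simp only [mul_eq_zero, norm_eq_zero, (zpow_pos z.im_pos k).ne', or_false, or_self] at this
  exact this

theorem re_petPair_self_nonneg {k : ℤ} {a : ℍ → ℂ} (ha : IsAdmissible k a) :
    0 ≤ (petPair k a a).re := by
  obtain ⟨Δ, hΔ, hinv⟩ := exists_level_petersson ha ha
  have := isProbabilityMeasure_meanMeasure Δ
  rw [petPair_eq_integral ha ha Δ hinv]
  refine le_of_le_of_eq (integral_nonneg fun z => ?_) (integral_re (integrable_petersson ha ha _))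
  simp only [Pi.zero_apply, petersson, ← Complex.normSq_eq_conj_mul_self, RCLike.re_to_complex,
    ← Complex.ofReal_zpow, ← Complex.ofReal_mul, Complex.ofReal_re]
  exact mul_nonneg (Complex.normSq_nonneg _) (zpow_pos z.im_pos k).le

section Hecke

variable {N p : ℕ}

theorem isRatPos_heckeMatrix (hp : p ≠ 0) (j : ℕ) : IsRatPos (heckeMatrix p j) := by
  refine ⟨det_heckeMatrix_pos p j,
    Matrix.GeneralLinearGroup.mkOfDetNeZero !![(1 : ℚ), (j : ℚ); 0, (p : ℚ)] ?_, ?_⟩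
  · simp [Matrix.det_fin_two_of, hp]
  · ext a b
    fin_cases a <;> fin_cases b <;> simp [hp]

theorem isRatPos_heckeDiagMatrix (hp : p ≠ 0) : IsRatPos (heckeDiagMatrix p) := by
  refine ⟨det_heckeDiagMatrix_pos p,
    Matrix.GeneralLinearGroup.mkOfDetNeZero !![(p : ℚ), 0; 0, 1] ?_, ?_⟩
  · simp [Matrix.det_fin_two_of, hp]
  · ext a b
    fin_cases a <;> fin_cases b <;> simp [hp]

/-- `(h | diag(p,1)) | diag(1,p) = p^(k-2) • h`. -/
theorem slash_diag_slash_matrix_zero (k : ℤ) (hp : p ≠ 0) (h : ℍ → ℂ) :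
    (h ∣[k] heckeDiagMatrix p) ∣[k] heckeMatrix p 0 = ((p : ℂ) ^ (k - 2)) • h := by
  ext z
  have hz : heckeDiagMatrix p • heckeMatrix p 0 • z = z := by
    apply UpperHalfPlane.ext
    rw [coe_heckeDiagMatrix_smul hp, coe_heckeMatrix_smul hp]
    have : (p : ℂ) ≠ 0 := by exact_mod_cast hp
    field_simp
    simp
  rw [slash_heckeMatrix_apply k hp, slash_heckeDiagMatrix_apply k hp, hz, Pi.smul_apply,
    smul_eq_mul, ← mul_assoc]
  congr 1
  rw [mul_comm, ← zpow_neg_one, ← zpow_add₀ (by exact_mod_cast hp : (p : ℂ) ≠ 0)]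
  congr 1
  ring

theorem mapGL_val_apply (g : SL(2, ℤ)) (i j : Fin 2) :
    ((mapGL ℝ g : GL (Fin 2) ℝ) : Matrix (Fin 2) (Fin 2) ℝ) i j = ((g.1 i j : ℤ) : ℝ) := rfl

/-- `diag(p,1) ∈ Γ₀(N) diag(1,p) Γ₀(N)`. -/
theorem exists_heckeDiag_eq (hp : p.Prime) (hpN : ¬ p ∣ N) :
    ∃ γ ∈ Gamma0 N, ∃ γ' ∈ Gamma0 N,
      (mapGL ℝ γ : GL (Fin 2) ℝ) * heckeDiagMatrix p = heckeMatrix p 0 * mapGL ℝ γ' := by
  obtain ⟨a, b, hab⟩ : IsCoprime (p : ℤ) (N : ℤ) :=
    Nat.isCoprime_iff_coprime.2 (hp.coprime_iff_not_dvd.2 hpN)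
  have h1 : (!![a, -b; (N : ℤ), (p : ℤ)]).det = 1 := by
    rw [Matrix.det_fin_two_of]; linear_combination hab
  have h2 : (!![a * p, -b; (N : ℤ), 1]).det = 1 := by
    rw [Matrix.det_fin_two_of]; linear_combination hab
  obtain ⟨γ, hγ⟩ : ∃ g : SL(2, ℤ), g.1 = !![a, -b; (N : ℤ), (p : ℤ)] := ⟨⟨_, h1⟩, rfl⟩
  obtain ⟨γ', hγ'⟩ : ∃ g : SL(2, ℤ), g.1 = !![a * p, -b; (N : ℤ), 1] := ⟨⟨_, h2⟩, rfl⟩
  refine ⟨γ, Gamma0_mem.2 ?_, γ', Gamma0_mem.2 ?_, ?_⟩
  · show ((γ.1 1 0 : ℤ) : ZMod N) = 0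
    rw [hγ]; exact (Int.cast_natCast N).trans (ZMod.natCast_self N)
  · show ((γ'.1 1 0 : ℤ) : ZMod N) = 0
    rw [hγ']; exact (Int.cast_natCast N).trans (ZMod.natCast_self N)
  · apply Units.ext
    rw [Units.val_mul, Units.val_mul, val_heckeMatrix hp.ne_zero, val_heckeDiagMatrix hp.ne_zero]
    ext i j
    simp only [Matrix.mul_apply, Fin.sum_univ_two, mapGL_val_apply, hγ, hγ']
    fin_cases i <;> fin_cases j <;> simp [mul_comm]

variable (k : ℤ)

theorem petPair_slash_mem_Gamma0 {k : ℤ} {a g : ℍ → ℂ} (ha : IsAdmissible k a)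
    (hg : IsAdmissible k g) (hgN : ∀ γ ∈ Gamma0 N, g ∣[k] γ = g) {γ : SL(2, ℤ)}
    (hγ : γ ∈ Gamma0 N) : petPair k (a ∣[k] γ) g = petPair k a g := by
  conv_lhs => rw [← hgN γ hγ]
  exact petPair_slash_SL ha hg γ

theorem slash_matrix_eq (hp : p ≠ 0) (f : ℍ → ℂ) (j : ℕ) :
    f ∣[k] heckeMatrix p j = (f ∣[k] heckeMatrix p 0) ∣[k] (ModularGroup.T ^ (j : ℤ)) := by
  rw [slash_SL_eq, ← SlashAction.slash_mul]
  congr 1
  apply Units.ext
  rw [Units.val_mul, val_heckeMatrix hp, val_heckeMatrix hp]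
  ext a b
  simp only [Matrix.mul_apply, Fin.sum_univ_two, mapGL_val_apply, ModularGroup.coe_T_zpow]
  fin_cases a <;> fin_cases b <;> simp

variable {k}

/-- Key computation: `⟨T_p f, g⟩ = (p + 1) ⟨f | diag(1,p), g⟩`. -/
theorem petPair_heckeT (hp : p.Prime) (hpN : ¬ p ∣ N) {f g : ℍ → ℂ} (hf : IsAdmissible k f)
    (hg : IsAdmissible k g) (hfN : ∀ γ ∈ Gamma0 N, f ∣[k] γ = f)
    (hgN : ∀ γ ∈ Gamma0 N, g ∣[k] γ = g) :
    petPair k (f ∣[k] heckeDiagMatrix p) g = petPair k (f ∣[k] heckeMatrix p 0) g ∧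
    petPair k (heckeT k p f) g = (p + 1 : ℂ) * petPair k (f ∣[k] heckeMatrix p 0) g := by
  have hm : ∀ j, IsAdmissible k (f ∣[k] heckeMatrix p j) := fun j =>
    hf.slash (isRatPos_heckeMatrix hp.ne_zero j)
  have hd : petPair k (f ∣[k] heckeDiagMatrix p) g = petPair k (f ∣[k] heckeMatrix p 0) g := by
    obtain ⟨γ, hγ, γ', hγ', h⟩ := exists_heckeDiag_eq hp hpN
    have : f ∣[k] heckeDiagMatrix p = (f ∣[k] heckeMatrix p 0) ∣[k] γ' := by
      rw [slash_SL_eq k _ γ', ← SlashAction.slash_mul, ← h, SlashAction.slash_mul,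
        ← slash_SL_eq, hfN γ hγ]
    rw [this, petPair_slash_mem_Gamma0 (hm 0) hg hgN hγ']
  refine ⟨hd, ?_⟩
  rw [heckeT_def, petPair_add_left (IsAdmissible.sum _ fun j _ => hm j)
      (hf.slash (isRatPos_heckeDiagMatrix hp.ne_zero)) hg,
    petPair_sum_left _ (fun j _ => hm j) hg, hd]
  have hT : ∀ j ∈ Finset.range p,
      petPair k (f ∣[k] heckeMatrix p j) g = petPair k (f ∣[k] heckeMatrix p 0) g := by
    intro j _
    rw [slash_matrix_eq k hp.ne_zero f j]
    refine petPair_slash_mem_Gamma0 (hm 0) hg hgN ?_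
    rw [Gamma0_mem]
    show (((ModularGroup.T ^ (j : ℤ)).1 1 0 : ℤ) : ZMod N) = 0
    rw [ModularGroup.coe_T_zpow]
    simp
  rw [Finset.sum_congr rfl hT]
  simp [add_mul]

theorem petPair_heckeT_symm (hp : p.Prime) (hpN : ¬ p ∣ N) {f g : ℍ → ℂ}
    (hf : IsAdmissible k f) (hg : IsAdmissible k g) (hfN : ∀ γ ∈ Gamma0 N, f ∣[k] γ = f)
    (hgN : ∀ γ ∈ Gamma0 N, g ∣[k] γ = g) :
    petPair k (heckeT k p f) g = petPair k f (heckeT k p g) := by
  have hgT : IsAdmissible k (heckeT k p g) :=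
    (IsAdmissible.sum _ fun j _ => hg.slash (isRatPos_heckeMatrix hp.ne_zero j)).add
      (hg.slash (isRatPos_heckeDiagMatrix hp.ne_zero))
  obtain ⟨hd', hT'⟩ := petPair_heckeT hp hpN hg hf hgN hfN
  rw [(petPair_heckeT hp hpN hf hg hfN hgN).2, ← petPair_conj hgT hf, hT', map_mul]
  simp only [map_add, map_natCast, map_one]
  congr 1
  rw [← hd', petPair_conj (hg.slash (isRatPos_heckeDiagMatrix hp.ne_zero)) hf]
  have hgd := hg.slash (isRatPos_heckeDiagMatrix (p := p) hp.ne_zero)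
  have h := petPair_slash hf hgd (isRatPos_heckeMatrix hp.ne_zero 0)
  rw [slash_diag_slash_matrix_zero k hp.ne_zero,
    petPair_smul_right (hf.slash (isRatPos_heckeMatrix hp.ne_zero 0)) hg,
    det_heckeMatrix hp.ne_zero, Complex.ofReal_natCast] at h
  exact mul_left_cancel₀ (zpow_ne_zero _ (Nat.cast_ne_zero.2 hp.ne_zero)) h

end Hecke

end Fermat.Agent.Hecke
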