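/-
Semisimplicity of the Hecke operators at primes not dividing the level, acting on cusp forms
for `Γ₀(N)`: they are self-adjoint for the Petersson inner product.
-/
import Fermat.Agent.Hecke.PeterssonInner
import Fermat.Prelude.Def_CuspForm_HeckeAlgebra
import Fermat.Prelude.Thm_ModularForm_sturm_bound_Gamma0
import Fermat.Prelude.Thm_CongruenceSubgroup_one_mem_strictPeriods_Gamma0
import Mathlib.Analysis.InnerProductSpace.JointEigenspace
import Mathlib.RingTheory.Nilpotent.Basic

set_option autoImplicit false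

noncomputable section

open CongruenceSubgroup UpperHalfPlane
open scoped MatrixGroups ModularForm ComplexConjugate Function

namespace Fermat.Agent.Hecke

variable {N : ℕ} {k : ℤ}

/-- `S_k(Γ₀(N))` is finite dimensional (Sturm bound). -/
theorem finiteDimensional_cuspForm_Gamma0 (N : ℕ) [NeZero N] (k : ℤ) :
    FiniteDimensional ℂ (CuspForm (Gamma0 N) k) := by
  set B := (k * (Gamma0 N).index).toNat / 12
  have hΓ := CongruenceSubgroup.one_mem_strictPeriods_Gamma0 N
  let L : CuspForm (Gamma0 N) k →ₗ[ℂ] (Fin (B + 1) → ℂ) :=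
    { toFun := fun f i => (qExpansion 1 f).coeff i
      map_add' := fun f g => by
        funext i
        rw [CuspForm.coe_add, ModularForm.qExpansion_add one_pos hΓ f g, map_add]
        rfl
      map_smul' := fun c f => by
        funext i
        rw [CuspForm.IsGLPos.coe_smul, ModularForm.qExpansion_smul one_pos hΓ c f]
        simp }
  refine FiniteDimensional.of_injective L ((injective_iff_map_eq_zero _).2 fun f hf => ?_)
  have h : (ModularFormClass.modularForm f : ModularForm (Gamma0 N) k) = 0 := by
    refine ModularForm.sturm_bound_Gamma0 N _ fun n hn => ?_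
    simpa [L] using congrFun hf ⟨n, Nat.lt_succ_of_le hn⟩
  exact DFunLike.coe_injective (by simpa using congrArg DFunLike.coe h)

variable [NeZero N]

theorem isAdmissible_cuspForm (f : CuspForm (Gamma0 N) k) : IsAdmissible k f :=
  isAdmissible_of_cuspForm f

theorem cuspForm_slash_Gamma0 (f : CuspForm (Gamma0 N) k) (γ : SL(2, ℤ)) (hγ : γ ∈ Gamma0 N) :
    (⇑f) ∣[k] γ = ⇑f := by
  rw [slash_SL_eq]
  exact SlashInvariantFormClass.slash_action_eq f _ (Subgroup.mem_map_of_mem _ hγ)

/-- The Petersson inner product on `S_k(Γ₀(N))`, normalised as a mean value. -/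
def petInner (f g : CuspForm (Gamma0 N) k) : ℂ := petPair k f g

theorem petInner_conj_symm (f g : CuspForm (Gamma0 N) k) :
    conj (petInner g f) = petInner f g :=
  petPair_conj (isAdmissible_cuspForm g) (isAdmissible_cuspForm f)

theorem petInner_self_eq_zero {f : CuspForm (Gamma0 N) k} (h : petInner f f = 0) : f = 0 :=
  DFunLike.coe_injective <| (eq_zero_of_petPair_self_eq_zero (isAdmissible_cuspForm f) h).trans
    CuspForm.coe_zero.symm

theorem petInner_heckeTLin {p : ℕ} (hp : p.Prime) (hpN : ¬ p ∣ N)
    (f g : CuspForm (Gamma0 N) k) :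
    petInner (CuspForm.heckeTLin k hp hpN f) g = petInner f (CuspForm.heckeTLin k hp hpN g) :=
  petPair_heckeT_symm hp hpN (isAdmissible_cuspForm f) (isAdmissible_cuspForm g)
    (cuspForm_slash_Gamma0 f) (cuspForm_slash_Gamma0 g)

variable (N k) in
/-- The inner product space structure given by the Petersson pairing. -/
def peterssonCore : InnerProductSpace.Core ℂ (CuspForm (Gamma0 N) k) where
  inner f g := petInner f g
  conj_inner_symm := petInner_conj_symm
  re_inner_nonneg f := re_petPair_self_nonneg (isAdmissible_cuspForm f)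
  add_left f f' g := by
    show petPair k ⇑(f + f') g = petPair k f g + petPair k f' g
    rw [CuspForm.coe_add]
    exact petPair_add_left (isAdmissible_cuspForm f) (isAdmissible_cuspForm f')
      (isAdmissible_cuspForm g)
  smul_left f g c := by
    show petPair k ⇑(c • f) g = conj c * petPair k f g
    rw [CuspForm.IsGLPos.coe_smul]
    exact petPair_smul_left (isAdmissible_cuspForm f) (isAdmissible_cuspForm g) c
  definite _ h := petInner_self_eq_zero h

/-- Good primes for the level `N`. -/
abbrev GoodPrime (N : ℕ) : Type := {l : ℕ // l.Prime ∧ ¬ l ∣ N}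

/-- The Hecke operator at a good prime. -/
abbrev goodT (k : ℤ) (l : GoodPrime N) : Module.End ℂ (CuspForm (Gamma0 N) k) :=
  CuspForm.heckeTLin k l.2.1 l.2.2

theorem goodT_commute (k : ℤ) (l l' : GoodPrime N) : Commute (goodT k l) (goodT k l') :=
  CuspForm.heckeTLin_comm k l.2.1 l.2.2 l'.2.1 l'.2.2

/-- Each good Hecke operator is semisimple. -/
theorem isSemisimple_heckeTLin {p : ℕ} (hp : p.Prime) (hpN : ¬ p ∣ N) :
    Module.End.IsSemisimple
      (CuspForm.heckeTLin k hp hpN : Module.End ℂ (CuspForm (Gamma0 N) k)) := by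
  letI := (peterssonCore N k).toNormedAddCommGroup
  letI : InnerProductSpace ℂ (CuspForm (Gamma0 N) k) := InnerProductSpace.ofCore (peterssonCore N k).toCore
  have := finiteDimensional_cuspForm_Gamma0 N k
  have hs : (CuspForm.heckeTLin k hp hpN).IsSymmetric := petInner_heckeTLin hp hpN
  exact Module.End.isFinitelySemisimple_iff_isSemisimple.1 hs.isFinitelySemisimple

/-- The good Hecke operators are simultaneously diagonalisable. -/
theorem iSup_iInf_eigenspace_heckeTLin_eq_top (N : ℕ) [NeZero N] (k : ℤ) :
    ⨆ a : GoodPrime N → ℂ, ⨅ l : GoodPrime N, Module.End.eigenspace (goodT k l) (a l) = ⊤ := by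
  letI := (peterssonCore N k).toNormedAddCommGroup
  letI : InnerProductSpace ℂ (CuspForm (Gamma0 N) k) := InnerProductSpace.ofCore (peterssonCore N k).toCore
  have := finiteDimensional_cuspForm_Gamma0 N k
  exact LinearMap.IsSymmetric.iSup_iInf_eq_top_of_commute (T := fun l : GoodPrime N => goodT k l)
    (fun l => petInner_heckeTLin l.2.1 l.2.2) (fun l l' _ => goodT_commute k l l')

/-- The eigenvalues of the good Hecke operators are real. -/
theorem conj_eigenvalue_heckeTLin {p : ℕ} (hp : p.Prime) (hpN : ¬ p ∣ N) {a : ℂ}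
    {f : CuspForm (Gamma0 N) k} (hf : f ≠ 0) (h : CuspForm.heckeTLin k hp hpN f = a • f) :
    conj a = a := by
  have h1 := petInner_heckeTLin hp hpN f f
  rw [h] at h1
  simp only [petInner, CuspForm.IsGLPos.coe_smul,
    petPair_smul_left (isAdmissible_cuspForm f) (isAdmissible_cuspForm f),
    petPair_smul_right (isAdmissible_cuspForm f) (isAdmissible_cuspForm f)] at h1
  exact mul_right_cancel₀ (fun h0 => hf (petInner_self_eq_zero h0)) h1

/-- Eigenforms with different eigenvalues at a good prime are orthogonal. -/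
theorem petInner_eq_zero_of_eigenvalue_ne {p : ℕ} (hp : p.Prime) (hpN : ¬ p ∣ N) {a b : ℂ}
    {f g : CuspForm (Gamma0 N) k} (hf : CuspForm.heckeTLin k hp hpN f = a • f)
    (hg : CuspForm.heckeTLin k hp hpN g = b • g) (hab : a ≠ b) : petInner f g = 0 := by
  by_cases hf0 : f = 0
  · subst hf0
    rw [petInner, CuspForm.coe_zero]
    exact petPair_zero_left (isAdmissible_cuspForm g)
  · have ha := conj_eigenvalue_heckeTLin hp hpN hf0 hf
    have h1 := petInner_heckeTLin hp hpN f g
    rw [hf, hg] at h1
    simp only [petInner, CuspForm.IsGLPos.coe_smul,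
      petPair_smul_left (isAdmissible_cuspForm f) (isAdmissible_cuspForm g),
      petPair_smul_right (isAdmissible_cuspForm f) (isAdmissible_cuspForm g), ha] at h1
    exact (mul_eq_mul_right_iff.1 h1).resolve_left hab

/-- Any element of the `ℂ`-algebra generated by good Hecke operators which is nilpotent is zero. -/
theorem eq_zero_of_isNilpotent_mem_adjoin (N : ℕ) [NeZero N] (k : ℤ)
    {x : Module.End ℂ (CuspForm (Gamma0 N) k)}
    (hx : x ∈ Algebra.adjoin ℂ (Set.range fun l : GoodPrime N => goodT k l))
    (hn : IsNilpotent x) : x = 0 := by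
  obtain ⟨m, hm⟩ := hn
  rw [← LinearMap.ker_eq_top, eq_top_iff, ← iSup_iInf_eigenspace_heckeTLin_eq_top N k]
  refine iSup_le fun a v hv => ?_
  rw [Submodule.mem_iInf] at hv
  obtain ⟨c, hc⟩ : ∃ c : ℂ, x v = c • v := by
    clear hm
    induction hx using Algebra.adjoin_induction with
    | mem y hy =>
      obtain ⟨l, rfl⟩ := hy
      exact ⟨a l, Module.End.mem_eigenspace_iff.1 (hv l)⟩
    | algebraMap c => exact ⟨c, Module.algebraMap_end_apply ..⟩
    | add y z _ _ hy hz =>
      obtain ⟨c, hc⟩ := hy
      obtain ⟨d, hd⟩ := hz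
      exact ⟨c + d, by rw [LinearMap.add_apply, hc, hd, add_smul]⟩
    | mul y z _ _ hy hz =>
      obtain ⟨c, hc⟩ := hy
      obtain ⟨d, hd⟩ := hz
      exact ⟨d * c, by rw [Module.End.mul_apply, hd, map_smul, hc, smul_smul]⟩
  have hpow : ∀ i : ℕ, (x ^ i) v = c ^ i • v := by
    intro i
    induction i with
    | zero => simp
    | succ i ih => rw [pow_succ', Module.End.mul_apply, ih, map_smul, hc, smul_smul, pow_succ]
  have h0 := hpow m
  rw [hm, LinearMap.zero_apply, eq_comm, smul_eq_zero] at h0
  rw [LinearMap.mem_ker, hc]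
  rcases h0 with h0 | h0
  · rw [pow_eq_zero_iff'] at h0
    rw [h0.1, zero_smul]
  · rw [h0, smul_zero]

/-- The Hecke algebra away from the level is reduced. -/
theorem isReduced_heckeAlgebra (N : ℕ) [NeZero N] (k : ℤ) (S : Set ℕ)
    (hS : ∀ q : ℕ, q.Prime → q ∣ N → q ∈ S) : IsReduced (CuspForm.heckeAlgebra N k S) := by
  refine ⟨fun x hx => Subtype.ext ?_⟩
  have hmem : ∀ y ∈ CuspForm.heckeAlgebra N k S,
      y ∈ Algebra.adjoin ℂ (Set.range fun l : GoodPrime N => goodT k l) := by
    intro y hy
    induction hy using Algebra.adjoin_induction with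
    | mem y hy =>
      rcases hy with ⟨l, hl, hlN, -, rfl⟩ | ⟨q, hqN, hq, hqS, rfl⟩
      · exact Algebra.subset_adjoin ⟨⟨l, hl, hlN⟩, rfl⟩
      · exact absurd (hS q hq hqN) hqS
    | algebraMap c => rw [eq_intCast]; exact intCast_mem _ c
    | add _ _ _ _ h h' => exact add_mem h h'
    | mul _ _ _ _ h h' => exact mul_mem h h'
  obtain ⟨m, hm⟩ := hx
  exact eq_zero_of_isNilpotent_mem_adjoin N k (hmem x.1 x.2)
    ⟨m, by rw [← SubmonoidClass.coe_pow, hm]; rfl⟩

end Fermat.Agent.Hecke
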