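import Mathlib.LinearAlgebra.Eigenspace.Triangularizable
import Mathlib.LinearAlgebra.Dimension.Finite
import Mathlib.RingTheory.Artinian.Module
import Mathlib.RingTheory.Ideal.Prime
import Mathlib.Analysis.Complex.Polynomial.Basic

/-!
# Eigencharacters of commutative rings of endomorphisms

For a prime ideal `I` of a commutative subalgebra `T` of `End K V`, with `V` finite dimensional over
an algebraically closed field, there is a common eigenvector of `T` whose eigencharacter has kernel
contained in `I`.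
-/

set_option autoImplicit false

namespace Fermat.Agent.Hecke

variable {K V : Type*} [Field K] [IsAlgClosed K] [AddCommGroup V] [Module K V]
  [FiniteDimensional K V] {T : Type*} [CommRing T]

/-- A commuting family of endomorphisms has a common eigenvector in every nonzero stable subspace. -/
theorem exists_common_eigenvector (ρ : T →+* Module.End K V) (W : Submodule K V) (hW : W ≠ ⊥)
    (hstab : ∀ t : T, ∀ w ∈ W, ρ t w ∈ W) :
    ∃ v ∈ W, v ≠ 0 ∧ ∀ t : T, ∃ c : K, ρ t v = c • v := by
  obtain ⟨U, ⟨hUW, hU0, hUst⟩, hmin⟩ := wellFounded_lt.has_min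
    {U : Submodule K V | U ≤ W ∧ U ≠ ⊥ ∧ ∀ t : T, ∀ u ∈ U, ρ t u ∈ U} ⟨W, le_rfl, hW, hstab⟩
  obtain ⟨v, hvU, hv0⟩ := U.exists_mem_ne_zero_of_ne_bot hU0
  refine ⟨v, hUW hvU, hv0, fun t => ?_⟩
  have : Nontrivial U := Submodule.nontrivial_iff_ne_bot.mpr hU0
  obtain ⟨c, hc⟩ := Module.End.exists_eigenvalue ((ρ t).restrict (hUst t))
  obtain ⟨u, hu⟩ := hc.exists_hasEigenvector
  let E : Submodule K V := U ⊓ (ρ t).eigenspace c
  have hEU : ¬ E < U := by
    refine hmin E ⟨inf_le_left.trans hUW, ?_, fun s e he => ?_⟩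
    · intro hE
      have : (u : V) ∈ E := ⟨u.2, Module.End.mem_eigenspace_iff.mpr
        (congrArg Subtype.val hu.apply_eq_smul)⟩
      rw [hE, Submodule.mem_bot] at this
      exact hu.2 (Subtype.ext this)
    · refine ⟨hUst s e he.1, Module.End.mem_eigenspace_iff.mpr ?_⟩
      rw [← Module.End.mul_apply, ← map_mul, mul_comm, map_mul, Module.End.mul_apply,
        Module.End.mem_eigenspace_iff.mp he.2, map_smul]
  have : v ∈ E := by
    have h : E = U := ((inf_le_left : E ≤ U).eq_or_lt).resolve_right hEU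
    rw [h]; exact hvU
  exact ⟨c, Module.End.mem_eigenspace_iff.mp this.2⟩

omit [IsAlgClosed K] [FiniteDimensional K V] in
/-- The eigencharacter of a common eigenvector. -/
theorem exists_eigenchar (ρ : T →+* Module.End K V) {v : V} (hv0 : v ≠ 0)
    (hv : ∀ t : T, ∃ c : K, ρ t v = c • v) :
    ∃ φ : T →+* K, ∀ t : T, ρ t v = φ t • v := by
  choose c hc using hv
  have key : ∀ {x y : K}, x • v = y • v → x = y := fun h => smul_left_injective K hv0 h
  exact ⟨{ toFun := c
           map_one' := key (by rw [← hc, map_one, one_smul]; rfl)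
           map_mul' := fun s t => key (by
             rw [← hc, map_mul, Module.End.mul_apply, hc, map_smul, hc, smul_smul, mul_comm])
           map_zero' := key (by rw [← hc, map_zero, zero_smul]; rfl)
           map_add' := fun s t => key (by rw [← hc, map_add, add_smul, ← hc, ← hc]; rfl) }, hc⟩

/-- For every prime `I` containing the kernel of the action there is an eigenvector whose
eigencharacter has kernel contained in `I`. -/
theorem exists_eigenchar_ker_le (ρ : T →+* Module.End K V) (I : Ideal T) [I.IsPrime]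
    (hI : RingHom.ker ρ ≤ I) :
    ∃ (φ : T →+* K) (v : V), v ≠ 0 ∧ (∀ t : T, ρ t v = φ t • v) ∧ RingHom.ker φ ≤ I := by
  obtain ⟨W, ⟨hWst, hWI⟩, hmin⟩ := wellFounded_lt.has_min
    {W : Submodule K V | (∀ t : T, ∀ w ∈ W, ρ t w ∈ W) ∧
      ∀ s : T, (∀ w ∈ W, ρ s w = 0) → s ∈ I}
    ⟨⊤, fun _ _ _ => Submodule.mem_top, fun s hs =>
      hI (LinearMap.ext fun w => hs w Submodule.mem_top)⟩
  have hW0 : W ≠ ⊥ := fun h => Ideal.IsPrime.ne_top ‹_›
    ((Ideal.eq_top_iff_one I).mpr (hWI 1 fun w hw => by simp [(Submodule.mem_bot K).mp (h ▸ hw)]))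
  obtain ⟨v, hvW, hv0, hv⟩ := exists_common_eigenvector ρ W hW0 hWst
  obtain ⟨φ, hφ⟩ := exists_eigenchar ρ hv0 hv
  refine ⟨φ, v, hv0, hφ, fun t ht => ?_⟩
  by_contra htI
  have htv : ρ t v = 0 := by rw [hφ, RingHom.mem_ker.mp ht, zero_smul]
  have hle : W.map (ρ t) ≤ W := by
    rintro _ ⟨w, hw, rfl⟩; exact hWst t w hw
  have hlt : W.map (ρ t) < W := by
    refine lt_of_le_of_ne hle fun heq => hv0 ?_
    let g : W →ₗ[K] W := (ρ t).restrict fun w hw => hWst t w hw
    have hg : Function.Surjective g := fun w => by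
      obtain ⟨x, hx, hxw⟩ := heq.ge w.2
      exact ⟨⟨x, hx⟩, Subtype.ext hxw⟩
    have := LinearMap.injective_iff_surjective.mpr hg
      (a₁ := ⟨v, hvW⟩) (a₂ := 0) (by rw [map_zero]; exact Subtype.ext htv)
    exact congrArg Subtype.val this
  refine hmin _ ⟨?_, fun s hs => ?_⟩ hlt
  · rintro s _ ⟨w, hw, rfl⟩
    exact ⟨ρ s w, hWst s w hw, by
      rw [← Module.End.mul_apply, ← map_mul, mul_comm, map_mul, Module.End.mul_apply]⟩
  · refine (Ideal.IsPrime.mem_or_mem ‹_› (hWI (s * t) fun w hw => ?_)).resolve_right htI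
    rw [map_mul, Module.End.mul_apply]
    exact hs _ ⟨w, hw, rfl⟩

end Fermat.Agent.Hecke
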